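import Mathlib.Algebra.Central.Defs
import Mathlib.FieldTheory.IsAlgClosed.Spectrum
import Mathlib.LinearAlgebra.Charpoly.BaseChange
import Mathlib.LinearAlgebra.Matrix.Charpoly.Eigs
import Mathlib.LinearAlgebra.Matrix.Kronecker
import Mathlib.LinearAlgebra.Matrix.StdBasis
import Mathlib.RingTheory.AdjoinRoot
import Mathlib.RingTheory.Flat.Basic
import Mathlib.RingTheory.IntegralClosure.IntegrallyClosed
import Mathlib.RingTheory.Polynomial.RationalRoot
import Mathlib.RingTheory.SimpleRing.Basic
import Mathlib.RingTheory.TensorProduct.Free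

/-!
# Base change and reduced norm of a division algebra

`A ⊗ D` is simple for a central division algebra `D`.  If it is `M_n(A)`, `A` algebraically closed,
the determinant of an element of `D` lies in the base field.
-/

set_option autoImplicit false

noncomputable section

open scoped TensorProduct Kronecker

namespace FA.Tsen

variable {F : Type*} [Field F] {D : Type*} [DivisionRing D] [Algebra F D] (A : Type*) [Field A]
  [Algebra F A]

/-- **A central division algebra stays simple** after an extension of the base field. -/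
theorem isSimpleRing_tensor [Algebra.IsCentral F D] : IsSimpleRing (A ⊗[F] D) := by
  classical
  have : Nontrivial (A ⊗[F] D) :=
    (Algebra.TensorProduct.includeRight_injective (A := A) (B := D)
      (algebraMap F A).injective).nontrivial
  refine IsSimpleRing.of_eq_bot_or_eq_top fun I => or_iff_not_imp_left.2 fun hI => ?_
  let b := Module.Basis.ofVectorSpace F A
  let c := TensorProduct.equivFinsuppOfBasisLeft (N := D) b
  have hc : ∀ (x : D) (y : A ⊗[F] D) i,
      c (((1 : A) ⊗ₜ[F] x) * y) i = x * c y i ∧ c (y * ((1 : A) ⊗ₜ[F] x)) i = c y i * x := by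
    intro x y i
    induction y using TensorProduct.induction_on with
    | zero => simp
    | tmul a z => simp [c, Algebra.TensorProduct.tmul_mul_tmul]
    | add u v hu hv => simp [mul_add, add_mul, hu.1, hu.2, hv.1, hv.2]
  have key : ∀ k, ∀ y ∈ I, y ≠ 0 → (c y).support.card ≤ k → (1 : A ⊗[F] D) ∈ I := by
    intro k
    induction k using Nat.strong_induction_on with
    | _ k ih =>
      intro y hy hy0 hk
      obtain ⟨i₀, hi₀⟩ := Finsupp.support_nonempty_iff.2 (c.map_ne_zero_iff.2 hy0)
      have hd : c y i₀ ≠ 0 := Finsupp.mem_support_iff.1 hi₀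
      set y' := y * ((1 : A) ⊗ₜ[F] (c y i₀)⁻¹) with hy'
      have hy'I : y' ∈ I := I.mul_mem_right _ _ hy
      have h1 : c y' i₀ = 1 := by rw [hy', (hc _ _ _).2, mul_inv_cancel₀ hd]
      by_cases hz : ∀ x : D, ((1 : A) ⊗ₜ[F] x) * y' = y' * ((1 : A) ⊗ₜ[F] x)
      · have hcen : ∀ i, ∃ α : F, algebraMap F D α = c y' i := fun i => by
          have hm : c y' i ∈ Subalgebra.center F D := Subalgebra.mem_center_iff.2 fun x => by
            rw [← (hc x y' i).1, hz x, (hc x y' i).2]
          exact Algebra.mem_bot.1 (Algebra.IsCentral.out hm)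
        choose α hα using hcen
        have e : y' = (∑ i ∈ (c y').support, α i • b i) ⊗ₜ[F] (1 : D) := by
          conv_lhs => rw [← c.symm_apply_apply y']
          rw [TensorProduct.sum_tmul, TensorProduct.equivFinsuppOfBasisLeft_symm_apply,
            Finsupp.sum]
          refine Finset.sum_congr rfl fun i _ => ?_
          rw [TensorProduct.smul_tmul, ← Algebra.algebraMap_eq_smul_one, hα]
        set a := ∑ i ∈ (c y').support, α i • b i
        have ha : a ≠ 0 := fun h => by
          have : c y' i₀ = 0 := by rw [e, h, TensorProduct.zero_tmul, map_zero, Finsupp.zero_apply]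
          exact one_ne_zero (h1.symm.trans this)
        have := I.mul_mem_left (a⁻¹ ⊗ₜ[F] (1 : D)) _ (e ▸ hy'I)
        rwa [Algebra.TensorProduct.tmul_mul_tmul, inv_mul_cancel₀ ha, one_mul,
          ← Algebra.TensorProduct.one_def] at this
      · push Not at hz
        obtain ⟨x, hx⟩ := hz
        set z := ((1 : A) ⊗ₜ[F] x) * y' - y' * ((1 : A) ⊗ₜ[F] x) with hzd
        have hz0 : z ≠ 0 := sub_ne_zero.2 hx
        have hsub : (c z).support ⊆ (c y).support.erase i₀ := fun i hi => by
          rw [Finsupp.mem_support_iff] at hi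
          rw [hzd, map_sub, Finsupp.sub_apply, (hc x y' i).1, (hc x y' i).2] at hi
          refine Finset.mem_erase.2 ⟨fun h => hi (by rw [h, h1, mul_one, one_mul, sub_self]),
            Finsupp.mem_support_iff.2 fun h => hi ?_⟩
          rw [hy', (hc _ _ _).2, h]
          simp
        have hlt : (c z).support.card < k :=
          lt_of_lt_of_le (lt_of_le_of_lt (Finset.card_le_card hsub)
            (Finset.card_erase_lt_of_mem hi₀)) hk
        exact ih _ hlt z (I.sub_mem (I.mul_mem_left _ _ hy'I) (I.mul_mem_right _ _ hy'I)) hz0 le_rfl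
  obtain ⟨y, hy, hy0⟩ : ∃ y ∈ I, y ≠ 0 := by
    by_contra! h
    exact hI (eq_bot_iff.2 fun y hy => (TwoSidedIdeal.mem_bot _).2 (h y hy))
  exact I.one_mem_iff.1 (key _ y hy hy0 le_rfl)

variable [FiniteDimensional F D]

/-- The characteristic polynomial of left multiplication on matrices. -/
theorem charpoly_mulLeft_matrix {K : Type*} [Field K] {n : ℕ} (M : Matrix (Fin n) (Fin n) K) :
    (LinearMap.mulLeft K M).charpoly = M.charpoly ^ n := by
  rw [← LinearMap.charpoly_toMatrix _ (Matrix.stdBasis K (Fin n) (Fin n))]
  have e : LinearMap.toMatrix (Matrix.stdBasis K (Fin n) (Fin n))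
      (Matrix.stdBasis K (Fin n) (Fin n)) (LinearMap.mulLeft K M) =
      M ⊗ₖ (1 : Matrix (Fin n) (Fin n) K) := by
    ext ⟨i, j⟩ ⟨k, l⟩
    rw [LinearMap.toMatrix_apply, Matrix.stdBasis_eq_single, LinearMap.mulLeft_apply]
    rcases eq_or_ne j l with rfl | h
    · simp [Matrix.stdBasis, Matrix.mul_apply, Matrix.single_apply]
    · simp [Matrix.stdBasis, Matrix.mul_apply, h, h.symm]
  rw [e]
  have h : (M ⊗ₖ (1 : Matrix (Fin n) (Fin n) K)).charmatrix =
      M.charmatrix ⊗ₖ (1 : Matrix (Fin n) (Fin n) (Polynomial K)) := by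
    ext ⟨i, j⟩ ⟨k, l⟩ : 2
    rcases eq_or_ne j l with rfl | h
    · rcases eq_or_ne i k with rfl | h'
      · simp
      · simp [h']
    · simp [Matrix.charmatrix_apply, h]
  rw [Matrix.charpoly, h, Matrix.det_kronecker, Matrix.det_one, one_pow, mul_one,
    Fintype.card_fin, Matrix.charpoly]

/-- Matrices killed by `M` on the left: each column lies in the kernel of `M`. -/
theorem finrank_ker_mulLeft {K : Type*} [Field K] {n : ℕ} (M : Matrix (Fin n) (Fin n) K) :
    Module.finrank K (LinearMap.ker (LinearMap.mulLeft K M)) =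
      n * Module.finrank K (LinearMap.ker M.mulVecLin) := by
  let e : LinearMap.ker (LinearMap.mulLeft K M) ≃ₗ[K] (Fin n → LinearMap.ker M.mulVecLin) :=
    { toFun := fun X j => ⟨fun i => (X : Matrix (Fin n) (Fin n) K) i j, funext fun i => by
        have h := congrFun₂ (LinearMap.mem_ker.1 X.2 : M * X.1 = 0) i j
        exact h⟩
      map_add' := fun X Y => rfl
      map_smul' := fun c X => rfl
      invFun := fun v => ⟨fun i j => (v j : Fin n → K) i, by
        ext i j
        exact congrFun (LinearMap.mem_ker.1 (v j).2 : M.mulVec (v j).1 = 0) i⟩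
      left_inv := fun X => rfl
      right_inv := fun v => rfl }
  rw [e.finrank_eq, Module.finrank_pi_fintype, Finset.sum_const, Finset.card_univ,
    Fintype.card_fin, smul_eq_mul]

/-- **The eigenspaces of `d ∈ D`**: if `p` is the minimal polynomial of `d` and `r` a root, then
`p.natDegree * dim ker (1 ⊗ d - r) = dim D`. -/
theorem natDegree_mul_finrank_ker {d : D} {r : A}
    (hr : Polynomial.aeval r (minpoly F d) = 0) :
    (minpoly F d).natDegree * Module.finrank A
      (LinearMap.ker (LinearMap.mulLeft A ((1 : A) ⊗ₜ[F] d - r • 1))) = Module.finrank F D := by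
  classical
  set p := minpoly F d
  have hint : IsIntegral F d := .of_finite F d
  have : Fact (Irreducible p) := ⟨minpoly.irreducible hint⟩
  let j : AdjoinRoot p →+* D := Ideal.Quotient.lift _ (Polynomial.aeval d).toRingHom fun q hq => by
    obtain ⟨s, rfl⟩ := Ideal.mem_span_singleton'.1 hq
    simp [p]
  have hj : ∀ q : Polynomial F, j (AdjoinRoot.mk p q) = Polynomial.aeval d q := fun q => rfl
  let _ : Module (AdjoinRoot p) D := Module.compHom D j
  have hsmul : ∀ (k : AdjoinRoot p) (x : D), k • x = j k * x := fun k x => rfl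
  have hjalg : ∀ c : F, j (algebraMap F (AdjoinRoot p) c) = algebraMap F D c := fun c => by
    rw [AdjoinRoot.algebraMap_eq, AdjoinRoot.of, RingHom.comp_apply, hj, Polynomial.aeval_C]
  have : IsScalarTower F (AdjoinRoot p) D := ⟨fun c k x => by
    rw [hsmul, hsmul, Algebra.smul_def, map_mul, hjalg, mul_assoc, Algebra.smul_def]⟩
  have : Module.Finite (AdjoinRoot p) D := Module.Finite.of_restrictScalars_finite F _ _
  set e := Module.finrank (AdjoinRoot p) D
  have htower : p.natDegree * e = Module.finrank F D := by
    rw [← Module.finrank_mul_finrank F (AdjoinRoot p) D,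
      (AdjoinRoot.powerBasis (minpoly.ne_zero hint)).finrank, AdjoinRoot.powerBasis_dim]
  let w := Module.finBasis (AdjoinRoot p) D
  let σ : AdjoinRoot p →ₐ[F] A := AdjoinRoot.liftAlgHom p (Algebra.ofId F A) r hr
  have hσ : σ (AdjoinRoot.root p) = r := AdjoinRoot.lift_root hr
  let f : A ⊗[F] D →ₗ[A] (Fin e → A) := LinearMap.liftBaseChange A
    (LinearMap.pi fun i => σ.toLinearMap ∘ₗ (w.coord i).restrictScalars F)
  have hf : ∀ (a : A) x i, f (a ⊗ₜ[F] x) i = a * σ (w.repr x i) := fun a x i => rfl
  set S := LinearMap.mulLeft A ((1 : A) ⊗ₜ[F] d - r • 1)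
  have hS : ∀ x : D, S ((1 : A) ⊗ₜ[F] x) =
      (1 : A) ⊗ₜ[F] (AdjoinRoot.root p • x) - r • ((1 : A) ⊗ₜ[F] x) := fun x => by
    simp only [S, LinearMap.mulLeft_apply, sub_mul, smul_mul_assoc, one_mul,
      Algebra.TensorProduct.tmul_mul_tmul, hsmul, AdjoinRoot.root, hj, Polynomial.aeval_X]
  have hle : LinearMap.range S ≤ LinearMap.ker f := by
    rintro _ ⟨y, rfl⟩
    rw [LinearMap.mem_ker]
    induction y using TensorProduct.induction_on with
    | zero => simp
    | tmul a x =>
      rw [show a ⊗ₜ[F] x = a • ((1 : A) ⊗ₜ[F] x) by rw [TensorProduct.smul_tmul', smul_eq_mul,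
        mul_one], map_smul, hS, map_smul, map_sub, map_smul]
      funext i
      simp [hf, hσ]
    | add u v hu hv => rw [map_add, map_add, hu, hv, add_zero]
  have hge : ∀ y, y - ∑ i, f y i • ((1 : A) ⊗ₜ[F] w i) ∈ LinearMap.range S := by
    have hk : ∀ (k : AdjoinRoot p) (x : D),
        (1 : A) ⊗ₜ[F] (k • x) - σ k • ((1 : A) ⊗ₜ[F] x) ∈ LinearMap.range S := by
      intro k x
      induction k using AdjoinRoot.induction_on with
      | ih q =>
        induction q using Polynomial.induction_on with
        | C c =>
          rw [AdjoinRoot.mk_C, ← AdjoinRoot.algebraMap_eq, σ.commutes, algebraMap_smul,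
            algebraMap_smul, TensorProduct.tmul_smul, sub_self]
          exact zero_mem _
        | add u v hu hv =>
          rw [map_add, map_add, add_smul, add_smul, TensorProduct.tmul_add, add_sub_add_comm]
          exact add_mem hu hv
        | monomial m c h =>
          rw [pow_succ, ← mul_assoc, map_mul (AdjoinRoot.mk p), AdjoinRoot.mk_X, map_mul σ, hσ]
          generalize AdjoinRoot.mk p (Polynomial.C c * Polynomial.X ^ m) = u at h ⊢
          rw [mul_comm u, mul_comm (σ u), mul_smul, mul_smul r]
          convert add_mem (LinearMap.mem_range_self S ((1 : A) ⊗ₜ[F] (u • x)))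
            (Submodule.smul_mem _ r h) using 1
          rw [hS, smul_sub]
          abel
    intro y
    induction y using TensorProduct.induction_on with
    | zero => simp
    | tmul a x =>
      have h := Submodule.smul_mem _ a (sum_mem (t := Finset.univ)
        fun i _ => hk (w.repr x i) (w i))
      rw [Finset.sum_sub_distrib, ← TensorProduct.tmul_sum, w.sum_repr, smul_sub,
        TensorProduct.smul_tmul', smul_eq_mul, mul_one, Finset.smul_sum] at h
      simpa [hf, smul_smul] using h
    | add u v hu hv =>
      convert add_mem hu hv using 1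
      simp only [map_add, Pi.add_apply, add_smul, Finset.sum_add_distrib]
      abel
  have hker : LinearMap.ker f = LinearMap.range S := le_antisymm (fun y hy => by
    simpa [LinearMap.mem_ker.1 hy] using hge y) hle
  have hsurj : LinearMap.range f = ⊤ := LinearMap.range_eq_top.2 fun v =>
    ⟨∑ i, v i • ((1 : A) ⊗ₜ[F] w i), funext fun i => by
      simp [map_sum, hf, Finsupp.single_apply, apply_ite, Finset.sum_ite_eq']⟩
  have h1 := f.finrank_range_add_finrank_ker
  have h2 := S.finrank_range_add_finrank_ker
  rw [hsurj, finrank_top, Module.finrank_fin_fun, hker] at h1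
  rw [← htower]
  congr 1
  omega

/-- **The reduced norm is defined over the base field.** -/
theorem det_splitting_mem [IsAlgClosed A] {n : ℕ} (e : A ⊗[F] D ≃ₐ[A] Matrix (Fin n) (Fin n) A)
    (d : D) : (e ((1 : A) ⊗ₜ[F] d)).det ∈ Set.range (algebraMap F A) := by
  set M := e ((1 : A) ⊗ₜ[F] d) with hM
  have hint : IsIntegral F d := .of_finite F d
  set p := minpoly F d with hp
  have hp0 : Polynomial.Monic p := minpoly.monic hint
  have hm : Module.finrank F D = n * n := by
    have := e.toLinearEquiv.finrank_eq
    rwa [Module.finrank_baseChange, Module.finrank_matrix, Fintype.card_fin, Module.finrank_self,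
      mul_one] at this
  -- the characteristic polynomial of `M`, up to `n`
  set P := (LinearMap.mulLeft F d).charpoly with hP
  have hMn : M.charpoly ^ n = P.map (algebraMap F A) := by
    have h1 : (LinearMap.mulLeft F d).baseChange A = LinearMap.mulLeft A ((1 : A) ⊗ₜ[F] d) := by
      refine LinearMap.ext fun y => ?_
      induction y using TensorProduct.induction_on with
      | zero => simp
      | tmul a x => simp [Algebra.TensorProduct.tmul_mul_tmul]
      | add u v hu hv => simp [hu, hv, mul_add]
    have h2 : e.toLinearEquiv.conj (LinearMap.mulLeft A ((1 : A) ⊗ₜ[F] d)) =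
        LinearMap.mulLeft A M := by
      ext X : 1
      simp [LinearEquiv.conj_apply, M]
    rw [hP, ← LinearMap.charpoly_baseChange, h1, ← LinearEquiv.charpoly_conj e.toLinearEquiv, h2,
      charpoly_mulLeft_matrix]
  rcases Nat.eq_zero_or_pos n with rfl | hn
  · exact ⟨1, by simp [Matrix.det_isEmpty]⟩
  have : Nonempty (Fin n) := ⟨⟨0, hn⟩⟩
  -- `P` is a power of `p`
  obtain ⟨a, ha⟩ : ∃ a, P = p ^ a := by
    classical
    refine ⟨(UniqueFactorizationMonoid.normalizedFactors P).card, ?_⟩
    have hP0 : P.Monic := LinearMap.charpoly_monic _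
    conv_lhs => rw [← hP0.normalize_eq_self,
      ← UniqueFactorizationMonoid.prod_normalizedFactors_eq hP0.ne_zero]
    rw [← Multiset.prod_replicate]
    congr 1
    refine Multiset.eq_replicate.2 ⟨rfl, fun q hq => ?_⟩
    have hq1 := UniqueFactorizationMonoid.irreducible_of_normalized_factor q hq
    have hqm : q.Monic := by
      rw [← UniqueFactorizationMonoid.normalize_normalized_factor q hq]
      exact Polynomial.monic_normalize hq1.ne_zero
    obtain ⟨r, hr⟩ := IsAlgClosed.exists_aeval_eq_zero A q
      (Polynomial.degree_pos_of_irreducible hq1).ne'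
    obtain ⟨s, hs⟩ := UniqueFactorizationMonoid.dvd_of_mem_normalizedFactors hq
    have hroot : M.charpoly.IsRoot r := by
      refine (pow_eq_zero_iff (n := n) (by omega)).1 ?_
      rw [← Polynomial.eval_pow, hMn, Polynomial.eval_map, ← Polynomial.aeval_def, hs, map_mul, hr,
        zero_mul]
    have hspec := spectrum.subset_polynomial_aeval M (p.map (algebraMap F A))
      ⟨r, Matrix.mem_spectrum_iff_isRoot_charpoly.2 hroot, rfl⟩
    rw [Polynomial.aeval_map_algebraMap, hM,
      show e ((1 : A) ⊗ₜ[F] d) = (e.toAlgHom.restrictScalars F).comp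
        Algebra.TensorProduct.includeRight d from rfl,
      Polynomial.aeval_algHom_apply, hp, minpoly.aeval, map_zero, spectrum.zero_eq,
      Set.mem_singleton_iff] at hspec
    simp only [Polynomial.eval_map, ← Polynomial.aeval_def] at hspec
    exact (minpoly.eq_of_irreducible_of_monic hq1 hr hqm).trans
      (minpoly.eq_of_irreducible_of_monic (minpoly.irreducible hint) hspec hp0).symm
  -- `n` divides `a`
  obtain ⟨r, hr⟩ := IsAlgClosed.exists_aeval_eq_zero A p (minpoly.degree_pos hint).ne'
  set k := Module.finrank A (LinearMap.ker (M - r • 1).mulVecLin)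
  have hk : Module.finrank A
      (LinearMap.ker (LinearMap.mulLeft A ((1 : A) ⊗ₜ[F] d - r • 1))) = n * k := by
    rw [← finrank_ker_mulLeft]
    refine (LinearEquiv.ofSubmodules e.toLinearEquiv _ _ ?_).finrank_eq
    ext X
    rw [Submodule.mem_map_equiv, LinearMap.mem_ker, LinearMap.mem_ker, LinearMap.mulLeft_apply,
      LinearMap.mulLeft_apply, ← map_eq_zero_iff e e.injective, map_mul, map_sub, map_smul, map_one]
    simp [M]
  have hdeg := natDegree_mul_finrank_ker A hr
  rw [hk, hm] at hdeg
  have hPdeg : a * p.natDegree = n * n := by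
    rw [← Polynomial.natDegree_pow, ← ha, LinearMap.charpoly_natDegree, hm]
  have hak : a = n * k := Nat.eq_of_mul_eq_mul_left (minpoly.natDegree_pos hint)
    (by rw [hdeg, mul_comm, hPdeg])
  have hchar : M.charpoly = (p ^ k).map (algebraMap F A) := by
    refine Polynomial.eq_of_monic_of_associated M.charpoly_monic ((hp0.pow k).map _) ?_
    have h : M.charpoly ^ n = (p ^ k).map (algebraMap F A) ^ n := by
      rw [hMn, ha, hak, ← Polynomial.map_pow, ← pow_mul, mul_comm]
    exact associated_of_dvd_dvd ((IsIntegrallyClosed.pow_dvd_pow_iff hn.ne').1 h.dvd)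
      ((IsIntegrallyClosed.pow_dvd_pow_iff hn.ne').1 h.symm.dvd)
  refine ⟨(-1) ^ n * (p ^ k).coeff 0, ?_⟩
  rw [Matrix.det_eq_sign_charpoly_coeff, hchar, Fintype.card_fin, Polynomial.coeff_map, map_mul,
    map_pow, map_neg, map_one]

end FA.Tsen

end
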