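import Fermat.Agent.Tsen.Forms
import Fermat.Agent.Tsen.ReducedNorm
import Mathlib.Algebra.Central.Basic
import Mathlib.FieldTheory.IsAlgClosed.AlgebraicClosure
import Mathlib.RingTheory.Norm.Basic
import Mathlib.RingTheory.SimpleModule.IsAlgClosed

/-!
# Tsen's theorem on division algebras

The reduced norm is a form of degree `n` in `n ^ 2` variables without nontrivial zero, so over a
`C_1` field there is no central division algebra but the field.
-/

set_option autoImplicit false

noncomputable section

open scoped TensorProduct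
open MvPolynomial

namespace FA.Tsen

variable {F : Type*} [Field F]

/-- Values in `F` at the points of `F` descend a form to `F`. -/
theorem exists_form_of_values {A σ : Type*} [Field A] [Algebra F A] [Fintype σ] {d : ℕ}
    (P : MvPolynomial σ A) (hP : P.IsHomogeneous d)
    (hv : ∀ x : σ → F, eval (algebraMap F A ∘ x) P ∈ Set.range (algebraMap F A)) :
    ∃ Q : MvPolynomial σ F, Q.IsHomogeneous d ∧
      ∀ x, algebraMap F A (eval x Q) = eval (algebraMap F A ∘ x) P := by
  obtain ⟨l, hl⟩ := (Algebra.linearMap F A).exists_leftInverse_of_injective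
    (LinearMap.ker_eq_bot.2 (algebraMap F A).injective)
  refine ⟨∑ s ∈ P.support, monomial s (l (P.coeff s)), IsHomogeneous.sum _ _ _ fun s hs =>
    isHomogeneous_monomial _ ((hP.degree_eq_sum_deg_support hs).symm), fun x => ?_⟩
  obtain ⟨c, hc⟩ := hv x
  rw [← hc]
  congr 1
  have h1 : l (algebraMap F A c) = c := congr($hl c)
  rw [← h1, hc, eval_eq (algebraMap F A ∘ x) P, map_sum, map_sum]
  refine Finset.sum_congr rfl fun s _ => ?_
  rw [eval_monomial, mul_comm, ← smul_eq_mul, ← LinearMap.map_smul, Algebra.smul_def, mul_comm,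
    map_finsuppProd, Finsupp.prod]
  simp

/-- The determinant of a linear combination of matrices, as a form. -/
theorem exists_det_form {A σ : Type*} [CommRing A] [Fintype σ] {n : ℕ}
    (B : σ → Matrix (Fin n) (Fin n) A) :
    ∃ P : MvPolynomial σ A, P.IsHomogeneous n ∧ ∀ x, eval x P = (∑ k, x k • B k).det := by
  let L : Matrix (Fin n) (Fin n) (MvPolynomial σ A) := Matrix.of fun i j => ∑ k, C (B k i j) * X k
  refine ⟨L.det, ?_, fun x => ?_⟩
  · rw [Matrix.det_apply]
    refine IsHomogeneous.sum _ _ _ fun τ _ => ?_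
    rw [Units.smul_def, zsmul_eq_mul, ← map_intCast (C (R := A) (σ := σ))]
    refine IsHomogeneous.C_mul ?_ _
    have := IsHomogeneous.prod Finset.univ (fun i => L (τ i) i) (fun _ => 1) fun i _ =>
      IsHomogeneous.sum _ _ _ fun k _ => isHomogeneous_C_mul_X (B k (τ i) i) k
    simpa using this
  · rw [RingHom.map_det]
    congr 1
    ext i j
    simp [L, Matrix.sum_apply, mul_comm]

/-- **Tsen**: over a `C_1` field the only central division algebra is the field itself. -/
theorem finrank_eq_one_of_isC_one (hF : IsC 1 F) (D : Type*) [DivisionRing D] [Algebra F D]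
    [FiniteDimensional F D] [Algebra.IsCentral F D] : Module.finrank F D = 1 := by
  classical
  let A := AlgebraicClosure F
  have := isSimpleRing_tensor (F := F) (D := D) A
  obtain ⟨n, hn, ⟨e⟩⟩ := IsSimpleRing.exists_algEquiv_matrix_of_isAlgClosed A (A ⊗[F] D)
  have hm : Module.finrank F D = n * n := by
    have := e.toLinearEquiv.finrank_eq
    rwa [Module.finrank_baseChange, Module.finrank_matrix, Fintype.card_fin, Module.finrank_self,
      mul_one] at this
  by_contra h
  have hn1 : n < n * n := by
    have : n ≠ 0 := NeZero.ne n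
    have : n ≠ 1 := fun h1 => h (by rw [hm, h1])
    exact lt_mul_of_one_lt_left (by omega) (by omega)
  let b := Module.finBasis F D
  obtain ⟨P, hP, hPv⟩ := exists_det_form fun k => e ((1 : A) ⊗ₜ[F] b k)
  have hval : ∀ x : Fin (Module.finrank F D) → F,
      eval (algebraMap F A ∘ x) P = (e ((1 : A) ⊗ₜ[F] ∑ k, x k • b k)).det := fun x => by
    rw [hPv, TensorProduct.tmul_sum, map_sum]
    congr 1
    refine Finset.sum_congr rfl fun k _ => ?_
    rw [TensorProduct.tmul_smul, ← algebraMap_smul A (x k), map_smul, Function.comp_apply]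
  obtain ⟨Q, hQ, hQv⟩ := exists_form_of_values P hP fun x => hval x ▸ det_splitting_mem A e _
  obtain ⟨x, hx, hx'⟩ := hF.form (NeZero.ne n) Q hQ
    (by rw [Fintype.card_fin, hm, pow_one]; exact hn1)
  have h0 := hQv x
  rw [hx', map_zero, hval] at h0
  have hd : ∑ k, x k • b k ≠ 0 := fun h' =>
    hx (funext fun k => Fintype.linearIndependent_iff.1 b.linearIndependent x h' k)
  have hu : IsUnit (e ((1 : A) ⊗ₜ[F] ∑ k, x k • b k)) :=
    ((isUnit_iff_ne_zero.2 hd).map (Algebra.TensorProduct.includeRight (A := A) (R := F))).map e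
  exact ((Matrix.isUnit_iff_isUnit_det _).1 hu).ne_zero h0.symm

/-- **Norms are surjective** in the finite extensions of a `C_1` field. -/
theorem norm_surjective_of_isC_one (hF : IsC 1 F) (L : Type*) [Field L] [Algebra F L]
    [FiniteDimensional F L] : Function.Surjective (Algebra.norm F : L → F) := by
  classical
  intro c
  rcases eq_or_ne c 0 with rfl | hc
  · exact ⟨0, Algebra.norm_zero⟩
  let b := Module.finBasis F L
  set d := Module.finrank F L
  obtain ⟨P, hP, hPv⟩ := exists_det_form fun k => Algebra.leftMulMatrix b (b k)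
  have hv : ∀ x : Fin d → F, eval x P = Algebra.norm F (∑ k, x k • b k) := fun x => by
    rw [hPv, Algebra.norm_eq_matrix_det b, map_sum]
    simp [map_smul]
  have hd0 : d ≠ 0 := Module.finrank_pos.ne'
  obtain ⟨x, hx, hx'⟩ := hF.form hd0 (rename some P - C c * X (none : Option (Fin d)) ^ d)
    ((hP.rename_isHomogeneous).sub (isHomogeneous_C_mul_X_pow c none d))
    (by rw [pow_one, Fintype.card_option, Fintype.card_fin]; omega)
  simp only [map_sub, map_mul, map_pow, eval_rename, eval_C, eval_X, hv, sub_eq_zero] at hx'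
  have hn : x none ≠ 0 := fun h => by
    rw [h, zero_pow hd0, mul_zero, Algebra.norm_eq_zero_iff] at hx'
    refine hx (funext fun o => ?_)
    cases o with
    | none => exact h
    | some k => exact Fintype.linearIndependent_iff.1 b.linearIndependent _ hx' k
  refine ⟨(x none)⁻¹ • ∑ k, (x ∘ some) k • b k, ?_⟩
  rw [Algebra.smul_def, map_mul, Algebra.norm_algebraMap, hx', inv_pow]
  field_simp
  rfl

/-- **Every central simple algebra over a `C_1` field is split.** -/
theorem exists_algEquiv_matrix_of_isC_one (hF : IsC 1 F) (R : Type*) [Ring R] [Algebra F R]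
    [IsSimpleRing R] [Algebra.IsCentral F R] [FiniteDimensional F R] :
    ∃ (n : ℕ) (_ : NeZero n), Nonempty (R ≃ₐ[F] Matrix (Fin n) (Fin n) F) := by
  have := IsArtinianRing.of_finite F R
  obtain ⟨n, hn, D, _, _, _, ⟨e⟩⟩ := IsSimpleRing.exists_algEquiv_matrix_divisionRing_finite F R
  have : Algebra.IsCentral F (Matrix (Fin n) (Fin n) D) := Algebra.IsCentral.of_algEquiv F _ _ e
  have : Algebra.IsCentral F D := ⟨fun z hz => by
    have hs : Matrix.scalar (Fin n) z ∈ Subalgebra.center F (Matrix (Fin n) (Fin n) D) :=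
      Subalgebra.mem_center_iff.2 fun X =>
        (Matrix.scalar_commute z (fun x => (Subalgebra.mem_center_iff.1 hz x).symm) X).symm
    obtain ⟨α, hα⟩ := Algebra.mem_bot.1 (Algebra.IsCentral.out hs)
    exact Algebra.mem_bot.2 ⟨α, by
      simpa [Algebra.algebraMap_eq_smul_one, Matrix.scalar_apply] using congrFun₂ hα 0 0⟩⟩
  have h1 := finrank_eq_one_of_isC_one hF D
  exact ⟨n, hn, ⟨e.trans (AlgEquiv.mapMatrix (.symm (.ofBijective (Algebra.ofId F D)
    ⟨(algebraMap F D).injective, ((LinearMap.injective_iff_surjective_of_finrank_eq_finrank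
      (f := Algebra.linearMap F D) (by rw [Module.finrank_self, h1])).1
        (algebraMap F D).injective)⟩)))⟩⟩

end FA.Tsen

end
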