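import Fermat.Agent.Tsen.Theorem
import Mathlib.LinearAlgebra.QuadraticForm.Basis
import Mathlib.RingTheory.MvPolynomial.Homogeneous

/-!
# Forms over `C_i` fields
-/

set_option autoImplicit false

open MvPolynomial

namespace FA.Tsen

variable {F : Type*} [Field F] {i : ℕ}

/-- A form of degree `d` in more than `d ^ i` variables is isotropic. -/
theorem IsC.form (hF : IsC i F) {σ : Type*} [Fintype σ] {d : ℕ} (hd0 : d ≠ 0)
    (f : MvPolynomial σ F) (hf : f.IsHomogeneous d) (hd : d ^ i < Fintype.card σ) :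
    ∃ x : σ → F, x ≠ 0 ∧ eval x f = 0 := by
  obtain ⟨x, hx, hx'⟩ := hF.exists_zero (fun _ : Unit => f) (fun _ => by
    rw [constantCoeff_eq]
    exact hf.coeff_eq_zero (d := 0) (by simpa [eq_comm] using hd0)) (by
    simpa using (Nat.pow_le_pow_left hf.totalDegree_le i).trans_lt hd)
  exact ⟨x, hx, hx' ()⟩

/-- A quadratic form in more than `2 ^ i` variables is isotropic. -/
theorem IsC.quadraticForm (hF : IsC i F) {V : Type*} [AddCommGroup V] [Module F V]
    [FiniteDimensional F V] (hV : 2 ^ i < Module.finrank F V) (Q : QuadraticForm F V) :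
    ∃ v : V, v ≠ 0 ∧ Q v = 0 := by
  classical
  let b := Module.finBasis F V
  let B := Q.toBilin b
  obtain ⟨x, hx, hx'⟩ := hF.form two_ne_zero (∑ j, ∑ k, C (B (b j) (b k)) * X j * X k)
    (IsHomogeneous.sum _ _ _ fun j _ => IsHomogeneous.sum _ _ _ fun k _ =>
      ((isHomogeneous_C _ _).mul (isHomogeneous_X F j)).mul (isHomogeneous_X F k))
    (by rwa [Fintype.card_fin])
  refine ⟨∑ j, x j • b j, fun h => hx (funext fun j =>
    Fintype.linearIndependent_iff.1 b.linearIndependent x h j), ?_⟩
  rw [← QuadraticMap.toQuadraticMap_toBilin Q b, LinearMap.BilinMap.toQuadraticMap_apply]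
  simp only [map_sum, map_smul, LinearMap.sum_apply, LinearMap.smul_apply, smul_eq_mul,
    Finset.mul_sum]
  simp only [map_sum, map_mul, eval_C, eval_X] at hx'
  rw [Finset.sum_comm] at hx'
  refine Eq.trans (Finset.sum_congr rfl fun j _ => Finset.sum_congr rfl fun k _ => ?_) hx'
  ring

end FA.Tsen
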