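import Mathlib.RingTheory.Nullstellensatz
import Mathlib.RingTheory.Ideal.KrullsHeightTheorem
import Mathlib.RingTheory.Polynomial.Basic

/-!
# Common zeros through the origin

Over an algebraically closed field fewer polynomials than variables, all without constant term,
have a common zero besides the origin: the origin has height the number of variables, and Krull's
height theorem bounds the height of a minimal prime by the number of equations.
-/

set_option autoImplicit false

open MvPolynomial

namespace FA.Tsen

variable {K : Type*} [Field K] {σ : Type*} [Fintype σ]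

/-- The variables numbered below `k` are sent to `0`. -/
noncomputable def killBelow (e : σ ≃ Fin (Fintype.card σ)) (k : ℕ) (s : σ) :
    MvPolynomial σ K :=
  if (e s : ℕ) < k then 0 else X s

theorem card_le_height_origin :
    (Fintype.card σ : ℕ∞) ≤ (vanishingIdeal K {(0 : σ → K)}).height := by
  classical
  let e := Fintype.equivFin σ
  let P : ℕ → Ideal (MvPolynomial σ K) := fun k =>
    RingHom.ker (aeval (R := K) (killBelow (K := K) e k))
  have hP : ∀ k, (P k).IsPrime := fun k => RingHom.ker_isPrime _
  have mono : ∀ k, P k ≤ P (k + 1) := by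
    intro k p hp
    have hc : (aeval (R := K) (killBelow (K := K) e (k + 1))).comp
        (aeval (R := K) (killBelow (K := K) e k)) =
        aeval (R := K) (killBelow (K := K) e (k + 1)) := by
      refine algHom_ext fun s => ?_
      simp only [AlgHom.comp_apply, aeval_X]
      unfold killBelow
      split_ifs with h1 h2
      · exact map_zero _
      · omega
      · rw [aeval_X, if_pos (by omega)]
      · rw [aeval_X, if_neg (by omega)]
    simp only [P, RingHom.mem_ker] at hp ⊢
    rw [← hc, AlgHom.comp_apply, hp, map_zero]
  have chain : ∀ k, k ≤ Fintype.card σ → (k : ℕ∞) ≤ (P k).height := by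
    intro k
    induction k with
    | zero => simp
    | succ k ih =>
      intro hk
      have hlt : P k < P (k + 1) := by
        refine lt_of_le_of_ne (mono k) fun heq => ?_
        have hs : (X (e.symm ⟨k, hk⟩) : MvPolynomial σ K) ∈ P (k + 1) := by
          simp [P, killBelow]
        rw [← heq] at hs
        simp [P, killBelow] at hs
      have := hP k
      have := hP (k + 1)
      calc ((k + 1 : ℕ) : ℕ∞) = (k : ℕ∞) + 1 := by push_cast; rfl
        _ ≤ (P k).height + 1 := by gcongr; exact ih (by omega)
        _ ≤ (P (k + 1)).height := Ideal.height_add_one_le_of_lt_of_isPrime hlt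
  refine (chain _ le_rfl).trans (Ideal.height_mono fun p hp => ?_)
  have hc : (aeval (R := K) (0 : σ → K)).comp
      (aeval (R := K) (killBelow (K := K) e (Fintype.card σ))) = aeval (R := K) (0 : σ → K) :=
    algHom_ext fun s => by
      simp [killBelow, (e s).isLt]
  rw [mem_vanishingIdeal_singleton_iff, ← hc, AlgHom.comp_apply]
  simp only [P, RingHom.mem_ker] at hp
  rw [hp, map_zero]

/-- **Fewer equations than variables**: a common zero other than the origin. -/
theorem exists_ne_zero_common_zero [IsAlgClosed K] {ι : Type*} [Fintype ι]
    (f : ι → MvPolynomial σ K) (h0 : ∀ i, constantCoeff (f i) = 0)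
    (hcard : Fintype.card ι < Fintype.card σ) :
    ∃ x : σ → K, x ≠ 0 ∧ ∀ i, eval x (f i) = 0 := by
  classical
  by_contra hne
  push Not at hne
  set I := Ideal.span ((Finset.univ.image f : Finset (MvPolynomial σ K)) :
    Set (MvPolynomial σ K)) with hI
  have hz : zeroLocus K I = {(0 : σ → K)} := by
    rw [hI, zeroLocus_span]
    ext x
    simp only [Finset.coe_image, Finset.coe_univ, Set.image_univ, Set.forall_mem_range,
      Set.mem_ofPred_eq, Set.mem_singleton_iff, aeval_eq_eval]
    refine ⟨fun h => by_contra fun hx => ?_, fun h i => ?_⟩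
    · obtain ⟨i, hi⟩ := hne x hx
      exact hi (h i)
    · rw [h]
      rw [eval_zero]
      exact h0 i
  have hM : I.radical = vanishingIdeal K {(0 : σ → K)} := by
    rw [← vanishingIdeal_zeroLocus_eq_radical (K := K) I, hz]
  have hmin : vanishingIdeal K {(0 : σ → K)} ∈ I.minimalPrimes :=
    ⟨⟨inferInstance, hM ▸ Ideal.le_radical⟩, fun Q ⟨hQ, hIQ⟩ _ => hM ▸ hQ.radical_le_iff.2 hIQ⟩
  have h := (card_le_height_origin (K := K) (σ := σ)).trans
    ((Ideal.height_le_card_of_mem_minimalPrimes_span_finset hmin).trans
      (Nat.cast_le.2 Finset.card_image_le))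
  rw [Finset.card_univ, Nat.cast_le] at h
  omega

end FA.Tsen
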