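import Fermat.Agent.Tsen.AffineZeros
import Mathlib.FieldTheory.RatFunc.Basic
import Mathlib.Algebra.Polynomial.BigOperators
import Mathlib.FieldTheory.ChevalleyWarning

/-!
# The theorem of Tsen and Lang

A field is `C_i` (for systems) if every system without constant terms in more variables than the
sum of the `i`-th powers of the total degrees has a nontrivial zero. Algebraically closed fields
are `C_0`, finite fields `C_1` (Chevalley and Warning), rational functions over a `C_i` field are
`C_(i+1)`, and finite extensions keep the property.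
-/

set_option autoImplicit false

open MvPolynomial

namespace FA.Tsen

variable {σ ι : Type*} [Fintype σ] [Fintype ι]

/-- **Lang's property `C_i`** for systems: a nontrivial zero as soon as the `i`-th powers of the
degrees sum to less than the number of variables. -/
def IsC (i : ℕ) (F : Type*) [Field F] : Prop :=
  ∀ (m r : ℕ) (f : Fin r → MvPolynomial (Fin m) F), (∀ k, constantCoeff (f k) = 0) →
    ∑ k, (f k).totalDegree ^ i < m → ∃ x : Fin m → F, x ≠ 0 ∧ ∀ k, eval x (f k) = 0

theorem IsC.exists_zero {i : ℕ} {F : Type*} [Field F] (hF : IsC i F)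
    (f : ι → MvPolynomial σ F) (h0 : ∀ k, constantCoeff (f k) = 0)
    (hd : ∑ k, (f k).totalDegree ^ i < Fintype.card σ) :
    ∃ x : σ → F, x ≠ 0 ∧ ∀ k, eval x (f k) = 0 := by
  let e := Fintype.equivFin σ
  let e' := Fintype.equivFin ι
  obtain ⟨x, hx, hx'⟩ := hF _ _ (fun k => rename e (f (e'.symm k)))
    (fun k => by rw [constantCoeff_rename]; exact h0 _) (by
      refine lt_of_le_of_lt (Finset.sum_le_sum fun k _ =>
        Nat.pow_le_pow_left (totalDegree_rename_le _ _) i) ?_
      rwa [e'.symm.sum_comp (fun k => (f k).totalDegree ^ i)])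
  refine ⟨x ∘ e, fun h => hx (funext fun j => ?_), fun k => ?_⟩
  · have := congrFun h (e.symm j)
    simpa using this
  · have := hx' (e' k)
    simpa [eval_rename] using this

/-- Algebraically closed fields are `C_0`. -/
theorem isC_zero (K : Type*) [Field K] [IsAlgClosed K] : IsC 0 K := by
  intro m r f h0 hd
  exact exists_ne_zero_common_zero f h0 (by simpa using hd)

/-- Finite fields are `C_1`. -/
theorem isC_one (K : Type*) [Field K] [Finite K] : IsC 1 K := by
  classical
  intro m r f h0 hd
  let := Fintype.ofFinite K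
  obtain ⟨p, hcp⟩ := CharP.exists K
  have hp : p.Prime := CharP.char_is_prime K p
  have hdvd := char_dvd_card_solutions_of_fintype_sum_lt p (f := f) (σ := Fin m)
    (by simpa using hd)
  by_contra hne
  push Not at hne
  have h1 : Fintype.card { x : Fin m → K // ∀ k, eval x (f k) = 0 } = 1 :=
    Fintype.card_eq_one_iff.2 ⟨⟨0, fun k => by rw [eval_zero]; exact h0 k⟩, fun ⟨x, hx⟩ =>
      Subtype.ext (by_contra fun hx0 => by
        obtain ⟨k, hk⟩ := hne x hx0
        exact hk (hx k))⟩
  rw [Fintype.card_eq_nat_card] at hdvd h1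
  rw [h1] at hdvd
  exact hp.not_dvd_one hdvd

/-- `C_i` is invariant under isomorphisms. -/
theorem IsC.of_ringEquiv {i : ℕ} {F L : Type*} [Field F] [Field L] (hF : IsC i F) (φ : F ≃+* L) :
    IsC i L := by
  intro m r f h0 hd
  obtain ⟨x, hx, hx'⟩ := hF m r (fun k => map φ.symm.toRingHom (f k))
    (fun k => by rw [constantCoeff_map, h0, map_zero])
    (lt_of_le_of_lt (Finset.sum_le_sum fun k _ =>
      Nat.pow_le_pow_left (Finset.sup_mono (support_map_subset _ _)) i) hd)
  refine ⟨fun j => φ (x j), fun h => hx (funext fun j => φ.injective ?_), fun k => ?_⟩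
  · simpa using congrFun h j
  · have h := eval₂_comp_left φ.toRingHom φ.symm.toRingHom x (f k)
    rw [show φ.toRingHom.comp φ.symm.toRingHom = RingHom.id L from RingHom.ext fun a => by simp,
      eval₂_id, show eval₂ φ.symm.toRingHom x (f k) = eval x (map φ.symm.toRingHom (f k)) from
        (eval_map _ _ _).symm, hx' k, map_zero] at h
    exact h.symm

omit [Fintype σ] in
theorem totalDegree_coeff_mul_le {R : Type*} [CommRing R] {P Q : Polynomial (MvPolynomial σ R)}
    {a b : ℕ} (hP : ∀ k, (P.coeff k).totalDegree ≤ a) (hQ : ∀ k, (Q.coeff k).totalDegree ≤ b)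
    (k : ℕ) : ((P * Q).coeff k).totalDegree ≤ a + b := by
  rw [Polynomial.coeff_mul]
  exact (totalDegree_finsetSum _ _).trans (Finset.sup_le fun j _ =>
    (totalDegree_mul _ _).trans (add_le_add (hP _) (hQ _)))

omit [Fintype σ] in
theorem totalDegree_coeff_pow_le {R : Type*} [CommRing R] {P : Polynomial (MvPolynomial σ R)}
    {a : ℕ} (hP : ∀ k, (P.coeff k).totalDegree ≤ a) :
    ∀ e k : ℕ, ((P ^ e).coeff k).totalDegree ≤ e * a
  | 0, k => by
    rw [pow_zero, Polynomial.coeff_one]
    split_ifs <;> simp
  | e + 1, k => by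
    rw [pow_succ, add_one_mul]
    exact totalDegree_coeff_mul_le (totalDegree_coeff_pow_le hP e) hP k

omit [Fintype σ] in
theorem totalDegree_coeff_prod_le {R α : Type*} [CommRing R] (S : Finset α)
    (P : α → Polynomial (MvPolynomial σ R)) (a : α → ℕ)
    (hP : ∀ s k, ((P s).coeff k).totalDegree ≤ a s) :
    ∀ k, ((∏ s ∈ S, P s).coeff k).totalDegree ≤ ∑ s ∈ S, a s := by
  classical
  induction S using Finset.induction_on with
  | empty =>
    intro k
    rw [Finset.prod_empty, Polynomial.coeff_one]
    split_ifs <;> simp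
  | insert s S hs ih =>
    intro k
    rw [Finset.prod_insert hs, Finset.sum_insert hs]
    exact totalDegree_coeff_mul_le (hP s) ih k

section polynomial

variable {K : Type*} [Field K] {i₀ : ℕ} (hK : IsC i₀ K)
include hK

/-- **Tsen over `K[t]`**, in unknown coefficients. -/
theorem exists_polynomial_zero (f : ι → MvPolynomial σ (Polynomial K))
    (h0 : ∀ i, constantCoeff (f i) = 0)
    (hd : ∑ i, (f i).totalDegree ^ (i₀ + 1) < Fintype.card σ) :
    ∃ x : σ → Polynomial K, x ≠ 0 ∧ ∀ i, eval x (f i) = 0 := by
  classical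
  set d : ι → ℕ := fun i => (f i).totalDegree with hdd
  set D : ℕ := Finset.univ.sup fun i => (f i).support.sup fun e => ((f i).coeff e).natDegree
  set N : ℕ := (∑ i, d i ^ i₀) * (D + 1) with hN
  let u : σ → Polynomial (MvPolynomial (σ × Fin (N + 1)) K) := fun s =>
    ∑ j : Fin (N + 1), Polynomial.C (MvPolynomial.X (s, j)) * Polynomial.X ^ (j : ℕ)
  let φ : Polynomial K →+* Polynomial (MvPolynomial (σ × Fin (N + 1)) K) :=
    Polynomial.mapRingHom MvPolynomial.C
  let G : ι → Polynomial (MvPolynomial (σ × Fin (N + 1)) K) := fun i => eval₂ φ u (f i)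
  have hu : ∀ s, (u s).natDegree ≤ N := fun s =>
    Polynomial.natDegree_sum_le_of_forall_le _ _ fun j _ =>
      (Polynomial.natDegree_C_mul_X_pow_le _ _).trans (by omega)
  have hG : ∀ i, (G i).natDegree ≤ d i * N + D := by
    intro i
    simp only [G, eval₂_eq]
    refine Polynomial.natDegree_sum_le_of_forall_le _ _ fun e he => ?_
    refine Polynomial.natDegree_mul_le.trans ((add_le_add (?_ : _ ≤ D) (?_ : _ ≤ d i * N)).trans
      (by omega))
    · refine Polynomial.natDegree_map_le.trans (le_trans ?_
        (Finset.le_sup (f := fun i => (f i).support.sup fun e => ((f i).coeff e).natDegree)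
          (Finset.mem_univ i)))
      exact Finset.le_sup (f := fun e => ((f i).coeff e).natDegree) he
    · refine (Polynomial.natDegree_prod_le _ _).trans ?_
      refine (Finset.sum_le_sum fun s _ => Polynomial.natDegree_pow_le.trans
        (Nat.mul_le_mul_left _ (hu s))).trans ?_
      rw [← Finset.sum_mul]
      exact Nat.mul_le_mul_right _ (le_totalDegree he)
  -- specialisation of the unknowns
  have spec : ∀ (v : σ × Fin (N + 1) → K) (i : ι),
      (G i).map (MvPolynomial.eval v) =
        eval (fun s => ∑ j : Fin (N + 1), Polynomial.C (v (s, j)) * Polynomial.X ^ (j : ℕ))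
          (f i) := by
    intro v i
    simp only [G]
    rw [← Polynomial.coe_mapRingHom, eval₂_comp_left]
    have hφ : (Polynomial.mapRingHom (MvPolynomial.eval v)).comp φ = RingHom.id _ := by
      refine Polynomial.ringHom_ext (fun a => ?_) ?_ <;> simp [φ]
    have hu' : (Polynomial.mapRingHom (MvPolynomial.eval v)) ∘ u =
        fun s => ∑ j : Fin (N + 1), Polynomial.C (v (s, j)) * Polynomial.X ^ (j : ℕ) := by
      funext s
      simp [u, Polynomial.map_sum]
    rw [hφ, hu', eval₂_id]
  let q : (Σ i : ι, Fin (d i * N + D + 1)) → MvPolynomial (σ × Fin (N + 1)) K :=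
    fun p => (G p.1).coeff (p.2 : ℕ)
  have hq0 : ∀ p, constantCoeff (q p) = 0 := by
    intro p
    have h := congrArg (fun P : Polynomial K => P.coeff (p.2 : ℕ)) (spec 0 p.1)
    simp only [Polynomial.coeff_map, Pi.zero_apply, map_zero, zero_mul,
      Finset.sum_const_zero] at h
    rw [← eval_zero]
    refine h.trans ?_
    rw [← Pi.zero_def, eval_zero, h0, Polynomial.coeff_zero]
  have hqd : ∀ p, (q p).totalDegree ≤ d p.1 := fun ⟨i, k⟩ => by
    simp only [q, G, eval₂_eq, Polynomial.finsetSum_coeff]
    refine (totalDegree_finsetSum _ _).trans (Finset.sup_le fun e he => ?_)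
    refine (totalDegree_coeff_mul_le (a := 0) (b := ∑ s ∈ e.support, e s * 1) (fun j => ?_)
      (totalDegree_coeff_prod_le _ _ _ fun s => totalDegree_coeff_pow_le (fun j => ?_) _) _).trans
      (by simp only [mul_one, zero_add]; exact le_totalDegree he)
    · simp [φ]
    · simp only [u, Polynomial.finsetSum_coeff, Polynomial.coeff_C_mul_X_pow]
      refine (totalDegree_finsetSum _ _).trans (Finset.sup_le fun j' _ => ?_)
      split_ifs <;> simp
  have hcard : ∑ p, (q p).totalDegree ^ i₀ < Fintype.card (σ × Fin (N + 1)) := by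
    refine lt_of_le_of_lt (Finset.sum_le_sum fun p _ => Nat.pow_le_pow_left (hqd p) i₀) ?_
    rw [← Finset.univ_sigma_univ, Finset.sum_sigma]
    simp only [Finset.sum_const, Finset.card_univ, Fintype.card_fin, Fintype.card_prod, smul_eq_mul]
    calc ∑ i, (d i * N + D + 1) * d i ^ i₀ = (∑ i, d i ^ (i₀ + 1)) * N + N := by
          rw [hN, Finset.sum_mul, Finset.sum_mul, ← Finset.sum_add_distrib]
          refine Finset.sum_congr rfl fun i _ => ?_
          ring
      _ < ((∑ i, d i ^ (i₀ + 1)) + 1) * (N + 1) := by
        rw [add_mul, mul_add, one_mul, mul_one]; omega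
      _ ≤ Fintype.card σ * (N + 1) := Nat.mul_le_mul_right _ hd
  obtain ⟨v, hv, hv'⟩ := hK.exists_zero q hq0 hcard
  refine ⟨fun s => ∑ j : Fin (N + 1), Polynomial.C (v (s, j)) * Polynomial.X ^ (j : ℕ),
    fun h => hv (funext fun ⟨s, j⟩ => ?_), fun i => ?_⟩
  · have := congrArg (fun P : Polynomial K => P.coeff (j : ℕ)) (congrFun h s)
    simpa [Polynomial.finsetSum_coeff, Polynomial.coeff_C_mul_X_pow, Fin.val_inj] using this
  · rw [← spec v i]
    ext k
    rw [Polynomial.coeff_map, Polynomial.coeff_zero]
    rcases Nat.lt_or_ge k (d i * N + D + 1) with hk | hk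
    · exact hv' ⟨i, ⟨k, hk⟩⟩
    · rw [Polynomial.coeff_eq_zero_of_natDegree_lt (by have := hG i; omega), map_zero]

end polynomial

/-- **The step of Tsen and Lang**: rational functions over a `C_i` field are `C_(i+1)`. -/
theorem IsC.ratFunc {i₀ : ℕ} {K : Type*} [Field K] (hK : IsC i₀ K) :
    IsC (i₀ + 1) (RatFunc K) := by
  classical
  intro m r f h0 hd
  have step : ∀ i, ∃ g : MvPolynomial (Fin m) (Polynomial K), constantCoeff g = 0 ∧
      g.totalDegree ≤ (f i).totalDegree ∧ ∃ b : Polynomial K, b ≠ 0 ∧
        ∀ x : Fin m → Polynomial K, algebraMap _ (RatFunc K) (eval x g) =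
          algebraMap _ (RatFunc K) b *
            eval (fun s => algebraMap _ (RatFunc K) (x s)) (f i) := by
    intro i
    obtain ⟨b, hb⟩ := IsLocalization.exist_integer_multiples (nonZeroDivisors (Polynomial K))
      (f i).support fun e => (f i).coeff e
    choose a ha using hb
    refine ⟨∑ e ∈ (f i).support.attach, monomial e.1 (a e.1 e.2), ?_, ?_, b,
      nonZeroDivisors.coe_ne_zero b, fun x => ?_⟩
    · rw [map_sum]
      refine Finset.sum_eq_zero fun e _ => ?_
      rw [constantCoeff_monomial, if_neg]
      intro h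
      exact (mem_support_iff.1 e.2) (by rw [h, ← constantCoeff_eq]; exact h0 i)
    · refine (totalDegree_finsetSum _ _).trans (Finset.sup_le fun e _ => ?_)
      exact (totalDegree_monomial_le _ _).trans (le_totalDegree e.2)
    · conv_rhs => rw [eval_eq, Finset.mul_sum, ← Finset.sum_attach]
      rw [map_sum, map_sum]
      refine Finset.sum_congr rfl fun e _ => ?_
      rw [eval_monomial, map_mul, ← mul_assoc, ha e.1 e.2, Algebra.smul_def,
        Finsupp.prod, map_prod]
      congr 1
      exact Finset.prod_congr rfl fun s _ => map_pow _ _ _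
  choose g hg0 hgd b hb hg using step
  obtain ⟨x, hx, hx'⟩ := exists_polynomial_zero hK g hg0
    (lt_of_le_of_lt (Finset.sum_le_sum fun i _ => Nat.pow_le_pow_left (hgd i) _)
      (by rwa [Fintype.card_fin]))
  have hinj := IsFractionRing.injective (Polynomial K) (RatFunc K)
  refine ⟨fun s => algebraMap _ (RatFunc K) (x s),
    fun h => hx (funext fun s => hinj ((congrFun h s).trans (map_zero _).symm)), fun i => ?_⟩
  have h := hg i x
  rw [hx' i, map_zero, eq_comm, mul_eq_zero] at h
  exact h.resolve_left fun e => hb i (hinj (e.trans (map_zero _).symm))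

/-- **Restriction of scalars**: the property passes to finite extensions. -/
theorem IsC.finite_extension {i₀ : ℕ} {F L : Type*} [Field F] [Field L] [Algebra F L]
    [FiniteDimensional F L] (hF : IsC i₀ F) : IsC i₀ L := by
  classical
  intro m r f h0 hd
  set N := Module.finrank F L
  let b : Module.Basis (Fin N) F L := Module.finBasis F L
  let w : Fin m → MvPolynomial (Fin m × Fin N) L := fun s => ∑ j, C (b j) * X (s, j)
  let G : Fin r → MvPolynomial (Fin m × Fin N) L := fun i => eval₂ C w (f i)
  let g : Fin r × Fin N → MvPolynomial (Fin m × Fin N) F := fun p =>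
    ∑ e ∈ (G p.1).support, monomial e (b.repr ((G p.1).coeff e) p.2)
  have hw : ∀ s, (w s).totalDegree ≤ 1 := fun s =>
    (totalDegree_finsetSum _ _).trans (Finset.sup_le fun j _ =>
      (totalDegree_mul _ _).trans (by rw [totalDegree_C, totalDegree_X]))
  have hG : ∀ i, (G i).totalDegree ≤ (f i).totalDegree := by
    intro i
    simp only [G, eval₂_eq]
    refine (totalDegree_finsetSum _ _).trans (Finset.sup_le fun e he => ?_)
    refine (totalDegree_mul _ _).trans ?_
    rw [totalDegree_C, zero_add]
    refine (totalDegree_finsetProd _ _).trans ((Finset.sum_le_sum fun s _ =>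
      (totalDegree_pow _ _).trans (Nat.mul_le_mul_left _ (hw s))).trans ?_)
    simp only [mul_one]
    exact le_totalDegree he
  have hev : ∀ (i : Fin r) (y : Fin m × Fin N → L),
      eval y (G i) = eval (fun s => ∑ j, b j * y (s, j)) (f i) := by
    intro i y
    simp only [G]
    rw [eval₂_comp_left]
    have h1 : (eval y).comp C = RingHom.id L := RingHom.ext fun a => eval_C a
    have h2 : eval y ∘ w = fun s => ∑ j, b j * y (s, j) := funext fun s => by simp [w]
    rw [h1, h2, eval₂_id]
  have hG0 : ∀ i, constantCoeff (G i) = 0 := fun i => by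
    rw [← eval_zero, hev]
    simp only [Pi.zero_apply, mul_zero, Finset.sum_const_zero]
    rw [eval_zero']
    exact h0 i
  obtain ⟨y, hy, hy'⟩ := hF.exists_zero g (fun p => by
      simp only [g, map_sum]
      refine Finset.sum_eq_zero fun e he => ?_
      rw [constantCoeff_monomial, if_neg]
      intro h
      exact mem_support_iff.1 he (by rw [h, ← constantCoeff_eq]; exact hG0 p.1)) (by
    have hp : ∀ p : Fin r × Fin N, (g p).totalDegree ≤ (f p.1).totalDegree := fun p =>
      ((totalDegree_finsetSum _ _).trans (Finset.sup_le fun e he =>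
        (totalDegree_monomial_le _ _).trans (le_totalDegree he))).trans (hG p.1)
    refine lt_of_le_of_lt (Finset.sum_le_sum fun p _ => Nat.pow_le_pow_left (hp p) i₀) ?_
    simp only [Fintype.card_prod, Fintype.card_fin]
    rw [Fintype.sum_prod_type]
    simp only [Finset.sum_const, Finset.card_univ, Fintype.card_fin, smul_eq_mul]
    rw [← Finset.mul_sum, mul_comm m]
    exact Nat.mul_lt_mul_of_pos_left hd Module.finrank_pos)
  refine ⟨fun s => ∑ j, b j * algebraMap F L (y (s, j)), fun h => hy (funext fun ⟨s, j⟩ => ?_),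
    fun i => ?_⟩
  · have hli := Fintype.linearIndependent_iff.1 b.linearIndependent (fun j => y (s, j)) (by
      simpa [Algebra.smul_def, mul_comm] using congrFun h s) j
    exact hli
  · rw [← hev i fun p => algebraMap F L (y p)]
    have hsum : G i = ∑ j, C (b j) * map (algebraMap F L) (g (i, j)) := by
      conv_lhs => rw [as_sum (G i)]
      simp only [g, map_sum, map_monomial, Finset.mul_sum, C_mul_monomial]
      rw [Finset.sum_comm]
      refine Finset.sum_congr rfl fun e _ => ?_
      rw [← map_sum]
      congr 1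
      conv_lhs => rw [← b.sum_repr ((G i).coeff e)]
      simp [Algebra.smul_def, mul_comm]
    rw [hsum, map_sum]
    refine Finset.sum_eq_zero fun j _ => ?_
    rw [map_mul, eval_map]
    refine mul_eq_zero_of_right _ ?_
    have h := eval₂_comp_left (algebraMap F L) (RingHom.id F) y (g (i, j))
    rw [RingHom.comp_id, eval₂_id, hy' (i, j), map_zero] at h
    exact h.symm

end FA.Tsen
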