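import Fermat.Agent.Tsen.Forms
import Mathlib.FieldTheory.RatFunc.AsPolynomial
import Mathlib.RingTheory.AlgebraicIndependent.AlgebraicClosure
import Mathlib.RingTheory.AlgebraicIndependent.Transcendental

/-!
# `C_i` along rational function fields in several variables

A field finite over `K(x_1, …, x_r)`, the `x_j` algebraically independent, is `C_(i + r)` if `K`
is `C_i`.
-/

set_option autoImplicit false

open IntermediateField

namespace FA.Tsen

variable {K L : Type*} [Field K] [Field L] [Algebra K L] {i r : ℕ}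

theorem isC_adjoin_range (hK : IsC i K) {x : Fin r → L} (hx : AlgebraicIndependent K x) :
    IsC (i + r) (adjoin K (Set.range x)) := by
  suffices h : ∀ k ≤ r, IsC (i + k) (adjoin K (x '' {j : Fin r | (j : ℕ) < k})) by
    refine (h r le_rfl).of_ringEquiv (equivOfEq ?_).toRingEquiv
    rw [← Set.image_univ]
    congr
    ext j
    simp
  intro k
  induction k with
  | zero =>
    intro _
    refine hK.of_ringEquiv (((botEquiv K L).symm.trans (equivOfEq ?_)).toRingEquiv)
    simp
  | succ k ih =>
    intro hk
    set S : Set (Fin r) := {j | (j : ℕ) < k} with hS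
    set j₀ : Fin r := ⟨k, hk⟩
    have ht : Transcendental (adjoin K (x '' S)) (x j₀) :=
      transcendental_adjoin_iff.2 (hx.transcendental_adjoin (by simp [hS, j₀]))
    have h1 : IsC (i + k + 1) (adjoin (adjoin K (x '' S)) {x j₀}) :=
      (ih (by omega)).ratFunc.of_ringEquiv (RatFunc.algEquivOfTranscendental _ ht).toRingEquiv
    have e : (adjoin (adjoin K (x '' S)) {x j₀}).restrictScalars K =
        adjoin K (x '' {j : Fin r | (j : ℕ) < k + 1}) := by
      rw [adjoin_adjoin_left, show ({x j₀} : Set L) = x '' {j₀} from (Set.image_singleton).symm,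
        ← Set.image_union]
      congr 2
      ext j
      simp only [hS, j₀, Set.mem_union, Set.mem_ofPred_eq, Set.mem_singleton_iff, Fin.ext_iff]
      omega
    rw [← add_assoc]
    exact (show IsC (i + k + 1) ((adjoin (adjoin K (x '' S)) {x j₀}).restrictScalars K) from
      h1).of_ringEquiv (equivOfEq e).toRingEquiv

/-- **Lang's theorem on `C_i` fields.** -/
theorem isC_of_finite_adjoin (hK : IsC i K) {x : Fin r → L} (hx : AlgebraicIndependent K x)
    [FiniteDimensional (adjoin K (Set.range x)) L] : IsC (i + r) L :=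
  (isC_adjoin_range hK hx).finite_extension

/-- A diagonal quadratic form which is isotropic takes every value. -/
theorem diagonal_universal {F σ : Type*} [Field F] [Fintype σ] (h2 : (2 : F) ≠ 0) {a : σ → F}
    (ha : ∀ j, a j ≠ 0) {x : σ → F} (hx : x ≠ 0) (h : ∑ j, a j * x j ^ 2 = 0) (c : F) :
    ∃ y : σ → F, ∑ j, a j * y j ^ 2 = c := by
  classical
  obtain ⟨j₀, hj₀⟩ := Function.ne_iff.1 hx
  have hd : 2 * a j₀ * x j₀ ≠ 0 := mul_ne_zero (mul_ne_zero h2 (ha j₀)) hj₀
  set s := (c - a j₀) / (2 * a j₀ * x j₀)
  refine ⟨fun j => s * x j + if j = j₀ then 1 else 0, ?_⟩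
  have e : ∀ j, a j * (s * x j + if j = j₀ then 1 else 0) ^ 2 =
      s ^ 2 * (a j * x j ^ 2) + (if j = j₀ then s * (2 * a j * x j) + a j else 0) := fun j => by
    split_ifs <;> ring
  simp only [e, Finset.sum_add_distrib, ← Finset.mul_sum, h, mul_zero, zero_add, Finset.sum_ite_eq',
    Finset.mem_univ, if_true, s, div_mul_cancel₀ _ hd]
  ring

end FA.Tsen
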